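import Fermat.Agent.ES.TwEis

/-!
# S48 / M / Desc : Eisenstein series twisted by a unitary character of a subgroup `Γ ∋ -1` of `SL(2,ℤ)`

Port of the second half of `ES/TwEis.lean` (`Gamma0 N ↦ Γ`).
-/

set_option autoImplicit false

open UpperHalfPlane ModularForm EisensteinSeries CongruenceSubgroup Filter Topology
open Fermat.Agent.ES
open scoped MatrixGroups Manifold Matrix

noncomputable section

namespace Fermat.Agent.S48.M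

variable {k : ℤ} {Γ : Subgroup SL(2, ℤ)} {χ : Γ →* ℂˣ}

open Classical in
/-- `χ(g)⁻¹` if `v` is the bottom row of `g ∈ Γ₀(N)`, zero if there is no such `g`. -/
def chiWL (χ : Γ →* ℂˣ) (v : Fin 2 → ℤ) : ℂ :=
  if h : ∃ g : Γ, botRow g = v then (((χ h.choose)⁻¹ : ℂˣ) : ℂ) else 0

lemma chi_eq_of_botRow_eqL (hT : ∀ g : Γ, (g : SL(2, ℤ)) 1 0 = 0 → χ g = 1)
    (g g' : Γ) (h : botRow g = botRow g') : χ g = χ g' := by
  have h0 : (g : SL(2, ℤ)) 1 0 = (g' : SL(2, ℤ)) 1 0 := congrFun h 0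
  have h1 : (g : SL(2, ℤ)) 1 1 = (g' : SL(2, ℤ)) 1 1 := congrFun h 1
  have : χ (g * g'⁻¹) = 1 := by
    apply hT
    have e : ((g : SL(2, ℤ)) * (g' : SL(2, ℤ))⁻¹) 1 0 =
        (g : SL(2, ℤ)) 1 0 * (g' : SL(2, ℤ)) 1 1 - (g : SL(2, ℤ)) 1 1 * (g' : SL(2, ℤ)) 1 0 := by
      simp [Matrix.SpecialLinearGroup.coe_mul, Matrix.SpecialLinearGroup.coe_inv,
        Matrix.adjugate_fin_two, Matrix.mul_apply, Fin.sum_univ_two]
      ring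
    rw [Subgroup.coe_mul, Subgroup.coe_inv, e, h0, h1]
    ring
  rw [map_mul, map_inv, mul_inv_eq_one] at this
  exact this

lemma chiW_botRowL (hT : ∀ g : Γ, (g : SL(2, ℤ)) 1 0 = 0 → χ g = 1) (g : Γ) :
    chiWL χ (botRow g) = (((χ g)⁻¹ : ℂˣ) : ℂ) := by
  have h : ∃ g' : Γ, botRow g' = botRow g := ⟨g, rfl⟩
  rw [chiWL, dif_pos h, chi_eq_of_botRow_eqL hT _ _ h.choose_spec]

lemma chiW_of_notL {v : Fin 2 → ℤ} (h : ¬ ∃ g : Γ, botRow g = v) : chiWL χ v = 0 := by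
  rw [chiWL, dif_neg h]

lemma chiW_vecMulL (hT : ∀ g : Γ, (g : SL(2, ℤ)) 1 0 = 0 → χ g = 1) (γ : Γ)
    (v : Fin 2 → ℤ) :
    chiWL χ (v ᵥ* ((γ : SL(2, ℤ)) : Matrix (Fin 2) (Fin 2) ℤ)) =
      chiWL χ v * (((χ γ)⁻¹ : ℂˣ) : ℂ) := by
  by_cases h : ∃ g : Γ, botRow g = v
  · obtain ⟨g, rfl⟩ := h
    rw [← botRow_mul, ← Subgroup.coe_mul, chiW_botRowL hT, chiW_botRowL hT, map_mul, mul_inv,
      Units.val_mul]
  · rw [chiW_of_notL h, zero_mul]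
    apply chiW_of_notL
    rintro ⟨g', hg'⟩
    apply h
    refine ⟨g' * γ⁻¹, ?_⟩
    rw [Subgroup.coe_mul, botRow_mul, hg', Subgroup.coe_inv]
    exact (vecMulEquiv (γ : SL(2, ℤ))).left_inv v

lemma norm_chiW_leL (hu : ∀ g, ‖(χ g : ℂ)‖ = 1) (v : Fin 2 → ℤ) : ‖chiWL χ v‖ ≤ 1 := by
  unfold chiWL
  split_ifs with h
  · rw [Units.val_inv_eq_inv_val, norm_inv, hu, inv_one]
  · simp

lemma chiW_zero_oneL (hT : ∀ g : Γ, (g : SL(2, ℤ)) 1 0 = 0 → χ g = 1) :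
    chiWL χ ![0, 1] = 1 := by
  have : botRow ((1 : Γ) : SL(2, ℤ)) = ![0, 1] := by
    ext i; fin_cases i <;> simp [botRow]
  rw [← this, chiW_botRowL hT, map_one]
  simp

lemma chiW_zero_neg_oneL (hneg : (-1 : SL(2, ℤ)) ∈ Γ) (hT : ∀ g : Γ, (g : SL(2, ℤ)) 1 0 = 0 → χ g = 1) :
    chiWL χ ![0, -1] = 1 := by
  have : botRow ((⟨-1, hneg⟩ : Γ) : SL(2, ℤ)) = ![0, -1] := by
    ext i; fin_cases i <;> simp [botRow]
  rw [← this, chiW_botRowL hT, hT _ (by simp)]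
  simp

lemma chiW_eq_zero_ofL (v : Fin 2 → ℤ) (hv : v 0 = 0)
    (hv' : v ∉ ({![0, 1], ![0, -1]} : Finset (Fin 2 → ℤ))) : chiWL χ v = 0 := by
  apply chiW_of_notL
  rintro ⟨g, rfl⟩
  apply hv'
  have hdet := Matrix.SpecialLinearGroup.det_coe (g : SL(2, ℤ))
  rw [Matrix.det_fin_two] at hdet
  have h10 : (g : SL(2, ℤ)) 1 0 = 0 := hv
  rw [h10, mul_zero, sub_zero] at hdet
  have h11 : (g : SL(2, ℤ)) 1 1 = 1 ∨ (g : SL(2, ℤ)) 1 1 = -1 :=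
    Int.isUnit_iff.mp (IsUnit.of_mul_eq_one _ (by rw [mul_comm]; exact hdet))
  simp only [Finset.mem_insert, Finset.mem_singleton]
  rcases h11 with h | h
  · left; ext i; fin_cases i
    · exact h10
    · exact h
  · right; ext i; fin_cases i
    · exact h10
    · exact h

/-- the Eisenstein series twisted by `χ` -/
def twEisL (k : ℤ) (χ : Γ →* ℂˣ) : ℍ → ℂ := (2 : ℂ)⁻¹ • wEis k (chiWL χ)

theorem mdifferentiable_twEisL (hk : 3 ≤ k) (hu : ∀ g, ‖(χ g : ℂ)‖ = 1) : MDiff (twEisL k χ) :=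
  (mdifferentiable_wEis hk (norm_chiW_leL hu)).const_smul _

theorem twEis_slashL (hT : ∀ g : Γ, (g : SL(2, ℤ)) 1 0 = 0 → χ g = 1) (g : Γ) :
    twEisL k χ ∣[k] (g : SL(2, ℤ)) = (χ g : ℂ) • twEisL k χ := by
  rw [twEisL, SL_smul_slash, wEis_slash, smul_comm]
  congr 1
  ext z
  rw [Pi.smul_apply, smul_eq_mul, wEis, wEis, ← tsum_mul_left]
  refine tsum_congr fun v => ?_
  have := chiW_vecMulL hT g⁻¹ v
  rw [Subgroup.coe_inv] at this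
  rw [this, map_inv, inv_inv]
  ring

theorem isBoundedAtImInfty_twEis_slashL (hk : 3 ≤ k) (hu : ∀ g, ‖(χ g : ℂ)‖ = 1) (γ : SL(2, ℤ)) :
    IsBoundedAtImInfty (twEisL k χ ∣[k] γ) := by
  rw [twEisL, SL_smul_slash]
  exact (isBoundedAtImInfty_wEis_slash hk (norm_chiW_leL hu) γ).const_smul_left _

theorem tendsto_twEisL (hneg : (-1 : SL(2, ℤ)) ∈ Γ) (hk : 3 ≤ k) (hk2 : Even k) (hu : ∀ g, ‖(χ g : ℂ)‖ = 1)
    (hT : ∀ g : Γ, (g : SL(2, ℤ)) 1 0 = 0 → χ g = 1) :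
    Tendsto (twEisL k χ) atImInfty (𝓝 1) := by
  have hk4 : 4 ≤ k := by
    obtain ⟨m, rfl⟩ := hk2; omega
  have h := tendsto_wEis hk4 (norm_chiW_leL hu) {![0, 1], ![0, -1]}
    (by intro v hv; simp only [Finset.mem_insert, Finset.mem_singleton] at hv
        rcases hv with rfl | rfl <;> rfl)
    (fun v hv hv' => chiW_eq_zero_ofL v hv hv')
  have hne : (![0, 1] : Fin 2 → ℤ) ≠ ![0, -1] := by
    intro h; have := congrFun h 1; simp at this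
  rw [Finset.sum_pair hne, chiW_zero_oneL hT, chiW_zero_neg_oneL hneg hT] at h
  have e : (1 : ℂ) * (((![0, 1] : Fin 2 → ℤ) 1 : ℤ) : ℂ) ^ (-k) +
      1 * (((![0, -1] : Fin 2 → ℤ) 1 : ℤ) : ℂ) ^ (-k) = 2 := by
    have : ((-1 : ℂ)) ^ (-k) = 1 := (hk2.neg).neg_one_zpow
    simp [this]
    norm_num
  rw [e] at h
  have h2 : Tendsto (fun z => (2 : ℂ)⁻¹ * wEis k (chiWL χ) z) atImInfty (𝓝 ((2 : ℂ)⁻¹ * 2)) :=
    h.const_mul _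
  rw [inv_mul_cancel₀ two_ne_zero] at h2
  exact h2

/-- **ES/TwEis**. -/
theorem exists_twEisL (hneg : (-1 : SL(2, ℤ)) ∈ Γ) (hk : 3 ≤ k) (hk2 : Even k) (χ : Γ →* ℂˣ)
    (hu : ∀ g, ‖(χ g : ℂ)‖ = 1) (hT : ∀ g : Γ, (g : SL(2, ℤ)) 1 0 = 0 → χ g = 1) :
    ∃ E : ℍ → ℂ, MDiff E ∧ (∀ g : Γ, E ∣[k] (g : SL(2, ℤ)) = (χ g : ℂ) • E) ∧
      (∀ γ : SL(2, ℤ), IsBoundedAtImInfty (E ∣[k] γ)) ∧ Tendsto E atImInfty (𝓝 1) :=
  ⟨twEisL k χ, mdifferentiable_twEisL hk hu, twEis_slashL hT, isBoundedAtImInfty_twEis_slashL hk hu,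
    tendsto_twEisL hneg hk hk2 hu hT⟩

/-! ### consequences -/

/-- `E_χ` is a modular form on the trivial group (holomorphic, all translates bounded). -/
theorem isMF_bot_twEisL (hk : 3 ≤ k) (hu : ∀ g, ‖(χ g : ℂ)‖ = 1) : S20.IsMF ⊥ k (twEisL k χ) :=
  ⟨mdifferentiable_twEisL hk hu, fun γ hγ => by
    rw [Subgroup.mem_bot.mp hγ]; exact SlashAction.slash_one _ _,
    isBoundedAtImInfty_twEis_slashL hk hu⟩

/-- If `χ ^ p = 1` then `E_χ ^ p` is a modular form of weight `p k` on `Γ₀(N)`. -/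
theorem isMF_twEis_powL (hk : 3 ≤ k) (hu : ∀ g, ‖(χ g : ℂ)‖ = 1)
    (hT : ∀ g : Γ, (g : SL(2, ℤ)) 1 0 = 0 → χ g = 1) (p : ℕ) (hp : ∀ g, χ g ^ p = 1) :
    S20.IsMF (Γ) ((p : ℤ) * k) (twEisL k χ ^ p) := by
  have h := (isMF_bot_twEisL (χ := χ) hk hu).pow p
  refine ⟨h.holo, fun γ hγ => ?_, h.bdd⟩
  rw [pow_slash_SL2, twEis_slashL hT ⟨γ, hγ⟩, smul_pow]
  have : ((χ ⟨γ, hγ⟩ : ℂˣ) : ℂ) ^ p = 1 := by
    rw [← Units.val_pow_eq_pow_val, hp]; rfl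
  rw [this, one_smul]

theorem twEis_ne_zeroL (hneg : (-1 : SL(2, ℤ)) ∈ Γ) (hk : 3 ≤ k) (hk2 : Even k) (hu : ∀ g, ‖(χ g : ℂ)‖ = 1)
    (hT : ∀ g : Γ, (g : SL(2, ℤ)) 1 0 = 0 → χ g = 1) : twEisL k χ ≠ 0 := by
  intro h
  have h1 := tendsto_twEisL hneg hk hk2 hu hT
  rw [h] at h1
  have h0 : Tendsto (0 : ℍ → ℂ) atImInfty (𝓝 0) := tendsto_const_nhds
  exact one_ne_zero (tendsto_nhds_unique h1 h0)

end Fermat.Agent.S48.M
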