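import Fermat.Agent.S48.M.Desc.Dict
import Fermat.Agent.S48.M.Desc.Ch
import Fermat.Agent.S29.DConj

/-!
# S48 / M / Desc : the `Aut ℂ`-conjugate of a form with character is a form with character

Port of `S29/DConjA` (`exists_char`), `S29/DConj` (`exists_conj`) (`N ↦ L`).
-/

set_option autoImplicit false

open UpperHalfPlane ModularForm ModularFormClass ModularCurve CongruenceSubgroup Fermat.Agent.S24
open Fermat.Agent.S29
open scoped MatrixGroups Manifold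

noncomputable section

namespace Fermat.Agent.S48.M

theorem exists_charL (L : Lvl) {m : ℕ} (hm : m ≠ 0) (k : ℤ) (a : ℍ → ℂ) (ha : MDiff a) (h0 : a ≠ 0)
    (hcf : S20.IsCF (L.Γ) ((m : ℤ) * k) (a ^ m)) :
    ∃ χ : L.Γ →* ℂˣ, (∀ γ, χ γ ^ m = 1) ∧
      (∀ γ : L.Γ, a ∣[k] (γ : SL(2, ℤ)) = ((χ γ : ℂˣ) : ℂ) • a) ∧
      ∀ g : SL(2, ℤ), IsZeroAtImInfty (a ∣[k] g) := by
  have h1 : ∀ γ : L.Γ, ∃ ζ : ℂ, ζ ^ m = 1 ∧ a ∣[k] (γ : SL(2, ℤ)) = ζ • a := fun γ =>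
    ES.eq_smul_of_pow_eq m hm _ _ (DConjA.mdiff_slash ha k γ) ha (by
      rw [← ES.pow_slash_SL2, hcf.inv γ γ.2])
  choose ζ hζ1 hζ2 using h1
  have hζ0 : ∀ γ, ζ γ ≠ 0 := fun γ h => by
    have := hζ1 γ
    rw [h, zero_pow hm] at this
    exact zero_ne_one this
  refine ⟨{ toFun := fun γ => Units.mk0 (ζ γ) (hζ0 γ), map_one' := ?_, map_mul' := ?_ },
    fun γ => ?_, fun γ => hζ2 γ, fun g => ?_⟩
  · apply Units.ext
    show ζ 1 = 1
    apply DConjA.eq_of_smul_eq h0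
    rw [← hζ2 1, one_smul]
    exact SlashAction.slash_one _ _
  · intro γ δ
    apply Units.ext
    show ζ (γ * δ) = ζ γ * ζ δ
    apply DConjA.eq_of_smul_eq h0
    rw [← hζ2 (γ * δ), Subgroup.coe_mul, SlashAction.slash_mul, hζ2 γ, SL_smul_slash, hζ2 δ,
      smul_smul]
  · apply Units.ext
    show ζ γ ^ m = 1
    exact hζ1 γ
  · apply DConjA.tendsto_zero_of_pow (m := m)
    rw [← ES.pow_slash_SL2]
    exact hcf.zero g

/-- [key D-CONJ-c] **the conjugate of a form with character** -/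
theorem exists_conjL (L : Lvl) (m n : ℕ) (hm : m ≠ 0) (χ : L.Γ →* ℂˣ)
    (hχ : ∀ γ, χ γ ^ m = 1) (f : ℍ → ℂ) (hf : IsChL L (12 * n) χ f) (s : ℂ ≃ₐ[ℚ] ℂ) :
    ∃ (χ' : L.Γ →* ℂˣ) (f' : ℍ → ℂ), (∀ γ, χ' γ ^ m = 1) ∧ IsChL L (12 * n) χ' f' ∧
      qExpansion 1 f' = (qExpansion 1 f).map (s : ℂ →+* ℂ) := by
  by_cases hf0 : f = 0
  · refine ⟨χ, 0, hχ, IsChL.zero_fun, ?_⟩
    rw [hf0, qExpansion_zero, map_zero]
  have e : (m : ℤ) * (12 * (n : ℤ)) = 12 * ((m * n : ℕ) : ℤ) := by push_cast; ring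
  have hG0 : S20.IsCF (L.Γ) (12 * ((m * n : ℕ) : ℤ)) (f ^ m) :=
    (hf.isCF_pow hm hχ).weight_cast e
  set G : CuspForm (L.Γ : Subgroup (GL (Fin 2) ℝ)) (12 * ((m * n : ℕ) : ℤ)) :=
    hG0.toCuspForm with hG
  have hGf : (G : ℍ → ℂ) = f ^ m := rfl
  obtain ⟨φ, hφ⟩ := exists_cuspForm_mapL L (m * n) s G
  have hGord : ∀ z : ℍ, (m : ℕ∞) ∣ analyticOrderAt ((G : ℍ → ℂ) ∘ ofComplex) (z : ℂ) := by
    intro z
    have han : AnalyticAt ℂ (f ∘ ofComplex) (z : ℂ) :=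
      (UpperHalfPlane.mdifferentiable_iff.mp hf.isQ.holo).analyticAt
        (UpperHalfPlane.isOpen_upperHalfPlaneSet.mem_nhds z.im_pos)
    have : (G : ℍ → ℂ) ∘ ofComplex = (f ∘ ofComplex) ^ m := by
      rw [hGf]; rfl
    rw [this, analyticOrderAt_pow han]
    exact ⟨analyticOrderAt (f ∘ ofComplex) (z : ℂ), by simp⟩
  have hφord := dvd_ord_conjL L m (m * n) s G φ hφ hGord
  obtain ⟨a, ha, ham⟩ := ES.exists_root m hm φ φ.holo' hφord
  have hqG : qExpansion 1 (G : ℍ → ℂ) = qExpansion 1 f ^ m := by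
    rw [hGf, qExpansion_pow_of_isQ hf.isQ]
  have ha0 : a ≠ 0 := by
    rintro rfl
    rw [zero_pow hm] at ham
    have h1 : qExpansion 1 (φ : ℍ → ℂ) = 0 := by rw [← ham]; exact qExpansion_zero 1
    rw [hφ, hqG, map_pow] at h1
    have h2 : (qExpansion 1 f).map (s : ℂ →+* ℂ) = 0 := pow_eq_zero_iff hm |>.mp h1
    have h3 : qExpansion 1 f = 0 := by
      have hinj : Function.Injective (PowerSeries.map (s : ℂ →+* ℂ)) :=
        PowerSeries.map_injective _ (RingHom.injective _)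
      exact hinj (by rw [h2, map_zero])
    exact hf0 (hf.isQ.eq_zero_of_qExpansion h3)
  have hcf : S20.IsCF (L.Γ) ((m : ℤ) * (12 * (n : ℤ))) (a ^ m) := by
    rw [ham]
    exact (S20.isCF_of_cuspForm φ).weight_cast e.symm
  obtain ⟨χ', hχ', hsl, hz⟩ := exists_charL L hm (12 * (n : ℤ)) a ha ha0 hcf
  have hq : IsQ (a ^ m) := by
    rw [ham]
    exact ⟨φ.holo', SlashInvariantFormClass.periodic_comp_ofComplex φ
      (one_mem_strictPeriodsL L), (CuspFormClass.zero_at_infty φ).boundedAtFilter⟩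
  obtain ⟨ζ, hζ, hQa, hqa⟩ := isQ_of_pow hm a ha hq ((qExpansion 1 f).map (s : ℂ →+* ℂ)) (by
    rw [ham, hφ, hqG, map_pow])
  have hζ0 : ζ ≠ 0 := by
    rintro rfl
    rw [zero_pow hm] at hζ
    exact zero_ne_one hζ
  refine ⟨χ', ζ⁻¹ • a, hχ', IsChL.smul ζ⁻¹ ⟨hQa, hsl, hz⟩, ?_⟩
  rw [qExpansion_smul hQa.analytic, hqa, smul_smul, inv_mul_cancel₀ hζ0, one_smul]

end Fermat.Agent.S48.M
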