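import Fermat.Agent.S48.M.Desc.Field

/-!
# S48 / M / Desc : `[FTL L : ℂ(j)] = [SL₂(ℤ) : L.Γ]` and the embeddings into `Mer`;  membership in `FL L`

Port of `S29/DDeg`, `S29/DMem` (`N ↦ L`).
-/

set_option autoImplicit false

open UpperHalfPlane ModularForm ModularFormClass ModularCurve AlgebraicCurve CongruenceSubgroup
open Fermat.Agent.S24 Fermat.Agent.S29 IntermediateField
open scoped MatrixGroups Manifold IntermediateField.algebraAdjoinAdjoin

noncomputable section

namespace Fermat.Agent.S48.M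

theorem transcendental_jTL (L : Lvl) : Transcendental ℂ (jTL L) := by
  have h0 : ((jL L : FL L) : LaurentSeries Kb) = jqModC Kb := by
    show coeffEmb Kb jq = jqModC Kb
    exact map_jqModC (algebraMap ℚ Kb)
  have h1 : algebraMap (FTL L) (LaurentSeries ℂ) (jTL L) = jqModC ℂ := by
    show coeffMap kappa ((jL L : FL L) : LaurentSeries Kb) = jqModC ℂ
    rw [h0]
    exact map_jqModC kappa
  rw [← transcendental_algebraMap_iff (A := LaurentSeries ℂ)
    (algebraMap (FTL L) (LaurentSeries ℂ)).injective, h1]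
  exact P2MW.S_ModularCurve_coeff_jqModC_neg_one.ModularCurve.CharLRows.transcendental_jqModC ℂ

theorem descAux_not_linearIndependent_pow (L : Lvl) (x : Mer) (hx : IsQuotL L.Γ x) :
    ∃ s : ℕ, ¬ LinearIndependent ℂ (fun i : Fin (s + 1) × Fin (Nat.card (QL L) + 1) =>
      algebraMap Hol Mer jH ^ (i.1 : ℕ) * x ^ (i.2 : ℕ)) := by
  obtain ⟨m, A, B, hA, hB, hB0, hx⟩ := hx
  set p := Nat.card (QL L) with hp
  have hp0 : 0 < p := card_QL_pos L
  refine ⟨m * p ^ 2, fun hli => ?_⟩
  set s := m * p ^ 2 with hs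
  have hD : algebraMap Hol Mer (DeltaH ^ s * B ^ p) ≠ 0 := by
    have hΔ0 : DeltaH ≠ 0 := by
      intro h
      exact discriminant_ne_zero I (congrFun (congrArg Subtype.val h) I)
    have : DeltaH ^ s * B ^ p ≠ 0 := mul_ne_zero (pow_ne_zero _ hΔ0) (pow_ne_zero _ hB0)
    simpa using (IsFractionRing.injective Hol Mer).ne this
  have h1 := hli.map' (LinearMap.mulLeft ℂ (algebraMap Hol Mer (DeltaH ^ s * B ^ p)))
    (LinearMap.ker_eq_bot.mpr (mul_right_injective₀ hD))
  have h2 : (LinearMap.mulLeft ℂ (algebraMap Hol Mer (DeltaH ^ s * B ^ p))) ∘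
      (fun i : Fin (s + 1) × Fin (p + 1) =>
        algebraMap Hol Mer jH ^ (i.1 : ℕ) * x ^ (i.2 : ℕ))
      = (IsScalarTower.toAlgHom ℂ Hol Mer).toLinearMap ∘ famH A B s p := by
    ext1 i
    exact (algebraMap_famH hx s p i).symm
  rw [h2] at h1
  refine not_linearIndependent_of_isMFHL L (s + m * p) (famH A B s p)
    (isMFH_famHL L m hA hB s p) ?_ h1.of_comp
  rw [Fintype.card_prod, Fintype.card_fin, Fintype.card_fin, ← hp, hs]
  nlinarith

open Polynomial in

theorem exists_poly_FTL (L : Lvl) (θ : FTL L) :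
    ∃ R : Polynomial ℂ⟮jTL L⟯, R ≠ 0 ∧ R.natDegree ≤ Nat.card (QL L) ∧
      Polynomial.aeval θ R = 0 := by
  obtain ⟨s, hs⟩ := descAux_not_linearIndependent_pow L (iotaTL L θ) (isQuotL_iotaTL L θ)
  refine exists_poly_of_not_linearIndependent' (transcendental_jTL L) θ s _ fun hli => hs ?_
  let φ : FTL L →ₗ[ℂ] Mer :=
    { toFun := iotaTL L
      map_add' := map_add _
      map_smul' := fun c x => by
        rw [Algebra.smul_def, map_mul, iotaTL_algebraMap, RingHom.id_apply, Algebra.smul_def] }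
  have h1 := hli.map' φ (LinearMap.ker_eq_bot.mpr (iotaTL L).injective)
  have e : (fun i : Fin (s + 1) × Fin (Nat.card (QL L) + 1) =>
      algebraMap Hol Mer jH ^ (i.1 : ℕ) * iotaTL L θ ^ (i.2 : ℕ)) =
      φ ∘ fun i : Fin (s + 1) × Fin (Nat.card (QL L) + 1) => jTL L ^ (i.1 : ℕ) * θ ^ (i.2 : ℕ) := by
    ext1 i
    show _ = iotaTL L (jTL L ^ (i.1 : ℕ) * θ ^ (i.2 : ℕ))
    rw [map_mul, map_pow, map_pow, iotaTL_jTL]
  rw [e]
  exact h1

theorem finiteDimensional_FTL (L : Lvl) : FiniteDimensional ℂ⟮jTL L⟯ (FTL L) :=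
  have : CharZero ℂ⟮jTL L⟯ := charZero_of_injective_algebraMap (algebraMap ℂ ℂ⟮jTL L⟯).injective
  finiteDimensional_of_bounded _ (exists_poly_FTL L)

/-- the conjugate embeddings -/
def sigmaTL (L : Lvl) (q : QL L) : FTL L →+* Mer :=
  ((merAct q.out : Mer ≃+* Mer) : Mer →+* Mer).comp (iotaTL L)

theorem sigmaTL_apply (L : Lvl) (q : QL L) (θ : FTL L) :
    sigmaTL L q θ = merAct q.out (iotaTL L θ) := rfl

theorem sigmaTL_mapFL (L : Lvl) (q : QL L) (y : FL L) :
    sigmaTL L q (mapFL L y) = sigmaL L q y := by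
  rw [sigmaTL_apply, iotaTL_mapFL]; rfl

theorem sigmaTL_injective (L : Lvl) : Function.Injective (sigmaTL L) := by
  intro q q' h
  apply sigmaL_injective L
  ext y
  rw [← sigmaTL_mapFL, ← sigmaTL_mapFL, h]

theorem sigmaTL_algebraMap (L : Lvl) (q : QL L) (a : ℂ) :
    sigmaTL L q (algebraMap ℂ (FTL L) a) = algebraMap ℂ Mer a := by
  rw [sigmaTL_apply, iotaTL_algebraMap, merAct_const]

theorem sigmaTL_jTL_sub (L : Lvl) (q : QL L) (c : ℂ) :
    sigmaTL L q (jTL L - algebraMap ℂ (FTL L) c) =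
      algebraMap Hol Mer (jH - algebraMap ℂ Hol c) := by
  rw [RingHom.map_sub, sigmaTL_algebraMap, sigmaTL_apply, iotaTL_jTL, merAct_algebraMap, holAct_jH,
    RingHom.map_sub, ← IsScalarTower.algebraMap_apply ℂ Hol Mer]

theorem finrank_FTL (L : Lvl) :
    Module.finrank ℂ⟮jTL L⟯ (FTL L) = Nat.card (QL L) := by
  have : Finite (QL L) := Subgroup.finite_quotient_of_finiteIndex
  apply le_antisymm
  · exact finrank_le_of_poly (jTL L) _ (finiteDimensional_FTL L) (exists_poly_FTL L)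
  · exact card_le_finrank_of_embeddings (jTL L) (finiteDimensional_FTL L) (sigmaTL L)
      (sigmaTL_injective L) (fun i j a => by rw [sigmaTL_algebraMap, sigmaTL_algebraMap])
      (fun i j => by
        rw [sigmaTL_apply, sigmaTL_apply, iotaTL_jTL, merAct_algebraMap, merAct_algebraMap, holAct_jH,
          holAct_jH])


open DMemAux

/-- [key D-MEM] -/
theorem exists_FL_of_qRel (L : Lvl) (x : Mer) (hx : IsQuotL L.Γ x) (X₀ : LaurentSeries Kb)
    (h : QRel x (ModularCurve.coeffMap kappa X₀)) :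
    ∃ u : FL L, (u : LaurentSeries Kb) = X₀ ∧ iotaL L u = x := by
  suffices hmem : ∃ u : FL L, (u : LaurentSeries Kb) = X₀ by
    obtain ⟨u, hu⟩ := hmem
    refine ⟨u, hu, ?_⟩
    have := qRel_iotaL L u
    rw [hu] at this
    exact this.unique_left h
  have hd : Module.finrank ℂ⟮jTL L⟯ (FTL L) ≤ Module.finrank Kb⟮jL L⟯ (FL L) := by
    rw [finrank_FTL, finrank_FL]
  exact descent_mem_intermediate (barL L) (FTL L) (coeffMap kappa)
    (fun d w hw => (linearIndependent_algebra_iff _).2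
      (linearIndependent_coeffMap w ((linearIndependent_algebra_iff _).1 hw)))
    (jL L) (transcendental_jL L) (finiteDimensional_FL L) (jTL L) (coe_mapFL L (jL L))
    (finiteDimensional_FTL L) hd
    (fun y => mapFL L y) (fun y => coe_mapFL L y) X₀ ⟨coeffMap kappa X₀, x, hx, h⟩ rfl

end Fermat.Agent.S48.M
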