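import Fermat.Agent.S48.M.Desc.Gal
import Fermat.Agent.S29.DDict

/-!
# S48 / M / Desc : "all orders on `ℍ` are divisible by `m`" is an algebraic, `Aut ℂ`-stable condition

Port of `S29/DDict` (`N ↦ L`).
-/

set_option autoImplicit false

open UpperHalfPlane ModularForm ModularFormClass ModularCurve AlgebraicCurve CongruenceSubgroup
open Fermat.Agent.S24 Fermat.Agent.S29 IntermediateField WithZero
open scoped MatrixGroups Manifold

noncomputable section

namespace Fermat.Agent.S48.M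

theorem finiteDimensional_subTL (L : Lvl) (c : ℂ) :
    FiniteDimensional ℂ⟮jTL L - algebraMap ℂ (FTL L) c⟯ (FTL L) := by
  rw [adjoin_sub_const]
  exact finiteDimensional_FTL L

theorem finrank_subTL (L : Lvl) (c : ℂ) :
    Module.finrank ℂ⟮jTL L - algebraMap ℂ (FTL L) c⟯ (FTL L) = Nat.card (QL L) := by
  rw [adjoin_sub_const]
  exact finrank_FTL L

/-- the algebraic form of "all orders on `ℍ` are divisible by `m`" -/
def PDL (L : Lvl) (m : ℕ) (u : FTL L) : Prop :=
  ∀ (v : Place ℂ (FTL L)) (c : ℂ), 0 < v.ord (jTL L - algebraMap ℂ (FTL L) c) →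
    (m : ℤ) * v.ord (jTL L - algebraMap ℂ (FTL L) c) ∣ EE c * v.ord u

theorem PDL_of_dvd (L : Lvl) (m : ℕ) (u : FTL L) (hu : u ≠ 0)
    (h : ∀ τ : ℍ, (m : ℤ) ∣ log (ordAt τ (iotaTL L u))) : PDL L m u := by
  intro v c hv
  obtain ⟨τ₀, hτ₀⟩ := exists_point c
  have hlt : holVal τ₀ (jH - algebraMap ℂ Hol c) < 1 := by
    rw [hτ₀, ← WithZero.exp_zero, WithZero.exp_lt_exp]
    have := EE_pos c
    omega
  have hy := transcendental_sub_const (jTL L) c (transcendental_jTL L)
  have hy0 : jTL L - algebraMap ℂ (FTL L) c ≠ 0 := by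
    intro h0
    rw [h0] at hy
    exact hy isAlgebraic_zero
  obtain ⟨q, hq⟩ := exists_embedding (jTL L - algebraMap ℂ (FTL L) c) hy
    (finiteDimensional_subTL L c) (ordAt τ₀) (sigmaTL L) (sigmaTL_injective L) (finrank_subTL L c).symm
    (fun i j a => by rw [sigmaTL_algebraMap, sigmaTL_algebraMap])
    (fun i j => by rw [sigmaTL_jTL_sub, sigmaTL_jTL_sub])
    (fun i a => by rw [sigmaTL_algebraMap]; exact ordAt_const _ _)
    (fun i => by rw [sigmaTL_jTL_sub, ordAt_algebraMap]; exact hlt) v hv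
  obtain ⟨ϖ, hϖ⟩ := IsDiscreteValuationRing.exists_irreducible v.toValuationSubring
  have h1 := log_val_eq v ((ordAt τ₀).comap (sigmaTL L q)) hq hϖ hy0
  rw [Valuation.comap_apply, sigmaTL_jTL_sub, ordAt_algebraMap, hτ₀, log_exp] at h1
  have h2 := log_val_eq v ((ordAt τ₀).comap (sigmaTL L q)) hq hϖ hu
  rw [Valuation.comap_apply, sigmaTL_apply, ordAt_merAct] at h2
  obtain ⟨t, ht⟩ := h (q.out⁻¹ • τ₀)
  rw [ht] at h2
  refine ⟨-t, ?_⟩
  set e := log (((ordAt τ₀).comap (sigmaTL L q)) (ϖ : FTL L)) with he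
  have h3 : EE c = -(v.ord (jTL L - algebraMap ℂ (FTL L) c) * e) := by rw [← h1]; ring
  rw [h3]
  linear_combination (v.ord (jTL L - algebraMap ℂ (FTL L) c)) * h2

theorem dvd_of_PDL (L : Lvl) (m : ℕ) (u : FTL L) (hu : u ≠ 0) (h : PDL L m u) (τ : ℍ) :
    (m : ℤ) ∣ log (ordAt τ (iotaTL L u)) := by
  set c := (jH : ℍ → ℂ) τ with hc
  obtain ⟨hlt, t, ht⟩ := EE_dvd τ
  rw [← hc] at hlt ht
  have hy := transcendental_sub_const (jTL L) c (transcendental_jTL L)
  have hy0 : jTL L - algebraMap ℂ (FTL L) c ≠ 0 := by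
    intro h0
    rw [h0] at hy
    exact hy isAlgebraic_zero
  set w := (ordAt τ).comap (iotaTL L) with hw
  have hwy : w (jTL L - algebraMap ℂ (FTL L) c) = holVal τ (jH - algebraMap ℂ Hol c) := by
    rw [hw, Valuation.comap_apply, RingHom.map_sub, iotaTL_jTL, iotaTL_algebraMap,
      IsScalarTower.algebraMap_apply ℂ Hol Mer, ← RingHom.map_sub, ordAt_algebraMap]
  obtain ⟨v, hv⟩ := exists_place_of_valuationSubring (jTL L - algebraMap ℂ (FTL L) c) hy
    (finiteDimensional_subTL L c) w.valuationSubring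
    (by
      intro htop
      have h1 : (jTL L - algebraMap ℂ (FTL L) c)⁻¹ ∈ w.valuationSubring := by
        rw [htop]; exact ValuationSubring.mem_top _
      rw [Valuation.mem_valuationSubring_iff, map_inv₀, hwy] at h1
      have h0 : holVal τ (jH - algebraMap ℂ Hol c) ≠ 0 := by
        rw [← hwy]; exact (Valuation.ne_zero_iff _).mpr hy0
      have h2 : 1 ≤ holVal τ (jH - algebraMap ℂ Hol c) := by
        have := mul_le_mul_left h1 (holVal τ (jH - algebraMap ℂ Hol c))
        rwa [inv_mul_cancel₀ h0, one_mul] at this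
      exact absurd hlt (not_lt.mpr h2))
    (fun a => by
      rw [Valuation.mem_valuationSubring_iff, hw, Valuation.comap_apply, iotaTL_algebraMap]
      exact ordAt_const _ _)
    (by rw [Valuation.mem_valuationSubring_iff, hwy]; exact hlt.le)
  obtain ⟨ϖ, hϖ⟩ := IsDiscreteValuationRing.exists_irreducible v.toValuationSubring
  have he := log_val_irreducible_neg v w hv hϖ
  have h1 := log_val_eq v w hv hϖ hy0
  have h2 := log_val_eq v w hv hϖ hu
  set e := log (w (ϖ : FTL L)) with hedef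
  rw [hwy, ht] at h1
  have hneg : log (holVal τ (jH - algebraMap ℂ Hol c)) < 0 := by
    have h0 : holVal τ (jH - algebraMap ℂ Hol c) ≠ 0 := by
      rw [← hwy]; exact (Valuation.ne_zero_iff _).mpr hy0
    rw [← WithZero.log_one, WithZero.log_lt_log h0 one_ne_zero]
    exact hlt
  rw [ht, h1] at hneg
  have hpos : 0 < v.ord (jTL L - algebraMap ℂ (FTL L) c) := by
    by_contra hle
    have : 0 ≤ v.ord (jTL L - algebraMap ℂ (FTL L) c) * e :=
      mul_nonneg_of_nonpos_of_nonpos (not_lt.mp hle) he.le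
    omega
  obtain ⟨s, hs⟩ := h v c hpos
  have h3 : log (ordAt τ (iotaTL L u)) = v.ord u * e := h2
  rw [h3]
  refine ⟨s * t, ?_⟩
  apply mul_left_cancel₀ (EE_pos c).ne'
  linear_combination e * hs + (m : ℤ) * s * h1.symm

theorem PDL_galTL (L : Lvl) (m : ℕ) (s : ℂ ≃ₐ[ℚ] ℂ) (u : FTL L) (h : PDL L m u) :
    PDL L m (galTL L s u) := by
  intro v c hv
  have e1 : ∀ f : FTL L, v.ord (galTL L s f) = ((semTL L s)⁻¹ • v).ord f := by
    intro f
    have := SemilinearAut.ord_smul (semTL L s) ((semTL L s)⁻¹ • v) f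
    rwa [smul_inv_smul, semTL_smul] at this
  have e2 : jTL L - algebraMap ℂ (FTL L) c = galTL L s (jTL L - algebraMap ℂ (FTL L) (s.symm c)) := by
    rw [map_sub, galTL_jTL, galTL_algebraMap, AlgEquiv.apply_symm_apply]
  rw [e2, e1] at hv
  have h1 := h ((semTL L s)⁻¹ • v) (s.symm c) hv
  rw [e2, e1, e1]
  have e3 : EE c = EE (s.symm c) := by
    conv_lhs => rw [← s.apply_symm_apply c]
    exact EE_map s _
  rw [e3]
  exact h1


/-- **D-DICT**: divisibility of all orders on `ℍ` is preserved by conjugation of cusp forms.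
[key D-DICT-c; `G = 0` trivial; `X` from `exists_FTL_of_cuspForm`; `ordAt τ (Δ ^ K) = 1`
(`S24.holVal_DeltaH`); `PDL_of_dvd`, `PDL_galTL`, `dvd_of_PDL`, `iotaTL_galTL_mul`.] -/
theorem dvd_ord_conjL (L : Lvl) (m K : ℕ) (s : ℂ ≃ₐ[ℚ] ℂ)
    (G φ : CuspForm (L.Γ : Subgroup (GL (Fin 2) ℝ)) (12 * K))
    (hφ : qExpansion 1 φ = (qExpansion 1 G).map (s : ℂ →+* ℂ))
    (hG : ∀ z : ℍ, (m : ℕ∞) ∣ analyticOrderAt ((G : ℍ → ℂ) ∘ ofComplex) (z : ℂ)) :
    ∀ z : ℍ, (m : ℕ∞) ∣ analyticOrderAt ((φ : ℍ → ℂ) ∘ ofComplex) (z : ℂ) := by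
  intro z
  obtain ⟨X, hX⟩ := exists_FTL_of_cuspForm L K G
  have hX' := iotaTL_galTL_mul L s K G φ hφ X hX
  have hΔ : ∀ τ : ℍ, ordAt τ (algebraMap Hol Mer (DelH ^ K)) = 1 := by
    intro τ
    have : holVal τ DelH = 1 := holVal_DeltaH τ
    rw [ordAt_algebraMap, map_pow, this, one_pow]
  by_cases hX0 : X = 0
  · -- then `φ = 0`
    rw [hX0, map_zero, map_zero, zero_mul] at hX'
    have hφ0 : (⟨φ, φ.holo'⟩ : Hol) = 0 :=
      (map_eq_zero_iff _ (IsFractionRing.injective Hol Mer)).mp hX'.symm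
    have hφ1 : (φ : ℍ → ℂ) = 0 := congrArg Subtype.val hφ0
    have h2 : analyticOrderAt ((φ : ℍ → ℂ) ∘ ofComplex) (z : ℂ) = ⊤ := by
      rw [hφ1]
      exact analyticOrderAt_eq_top.mpr (Filter.Eventually.of_forall fun _ => rfl)
    rw [h2]
    exact ⟨⊤, by
      by_cases hm : m = 0
      · subst hm
        exfalso
        have h3 := hG z
        rw [Nat.cast_zero, zero_dvd_iff] at h3
        have hG0 : (⟨G, G.holo'⟩ : Hol) = 0 := by
          rw [hX0, map_zero, zero_mul] at hX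
          exact (map_eq_zero_iff _ (IsFractionRing.injective Hol Mer)).mp hX.symm
        have hG1 : (G : ℍ → ℂ) = 0 := congrArg Subtype.val hG0
        have h4 : analyticOrderAt ((G : ℍ → ℂ) ∘ ofComplex) (z : ℂ) = ⊤ := by
          rw [hG1]
          exact analyticOrderAt_eq_top.mpr (Filter.Eventually.of_forall fun _ => rfl)
        rw [h4] at h3
        exact ENat.top_ne_zero h3
      · rw [ENat.mul_top (by exact_mod_cast hm)]⟩
  · have hG0 : (⟨G, G.holo'⟩ : Hol) ≠ 0 := by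
      intro h0
      rw [h0, map_zero] at hX
      rcases mul_eq_zero.mp hX with h1 | h1
      · exact hX0 ((map_eq_zero (iotaTL L)).mp h1)
      · have := hΔ z
        rw [h1, map_zero] at this
        exact zero_ne_one this
    have hgX0 : galTL L s X ≠ 0 := fun h0 => hX0 ((map_eq_zero_iff _ (galTL L s).injective).mp h0)
    have hφ0 : (⟨φ, φ.holo'⟩ : Hol) ≠ 0 := by
      intro h0
      rw [h0, map_zero] at hX'
      rcases mul_eq_zero.mp hX' with h1 | h1
      · exact hgX0 ((map_eq_zero (iotaTL L)).mp h1)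
      · have := hΔ z
        rw [h1, map_zero] at this
        exact zero_ne_one this
    have h1 : ∀ τ : ℍ, (m : ℤ) ∣ log (ordAt τ (iotaTL L X)) := by
      intro τ
      have h2 := (dvd_analyticOrderAt_iff m ⟨G, G.holo'⟩ hG0 τ).mp (hG τ)
      rwa [← hX, map_mul, hΔ, mul_one] at h2
    have h3 := dvd_of_PDL L m _ hgX0 (PDL_galTL L m s X (PDL_of_dvd L m X hX0 h1)) z
    refine (dvd_analyticOrderAt_iff m ⟨φ, φ.holo'⟩ hφ0 z).mpr ?_
    rwa [← hX', map_mul, hΔ, mul_one]

end Fermat.Agent.S48.M
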