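import Fermat.Agent.S48.M.Fld.Degree
import Fermat.Agent.S29.DMem

/-!
# S48 / M / Desc : the field `FTL L ⊆ ℂ((q))` of `q`-expansions of quotients of modular forms on `L.Γ`

Port of `S29/DQRel` (last part), `S29/DField` (first part), `S29/DFieldAux` (`N ↦ L`).
-/

set_option autoImplicit false

open UpperHalfPlane ModularForm ModularFormClass ModularCurve AlgebraicCurve CongruenceSubgroup
open Fermat.Agent.S24 Fermat.Agent.S29
open scoped MatrixGroups Manifold

noncomputable section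

namespace Fermat.Agent.S48.M

/-- modular forms on `Γ₀(L)` have `q`-expansions -/
theorem isQ_of_modularFormL (L : Lvl) {k : ℤ}
    (F : ModularForm (L.Γ : Subgroup (GL (Fin 2) ℝ)) k) : IsQ (F : ℍ → ℂ) :=
  ⟨F.holo', SlashInvariantFormClass.periodic_comp_ofComplex F
      (one_mem_strictPeriodsL L),
    ModularFormClass.bdd_at_infty F⟩

/-- every quotient of modular forms has a `q`-expansion -/
theorem exists_qRel_of_isQuotL (L : Lvl) (x : Mer) (hx : IsQuotL L.Γ x) :
    ∃ X : LaurentSeries ℂ, QRel x X := by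
  obtain ⟨m, a, b, ⟨F, rfl⟩, ⟨G, rfl⟩, hb0, h⟩ := hx
  exact ⟨ofPS (qExpansion 1 (mfHol F : ℍ → ℂ)) / ofPS (qExpansion 1 (mfHol G : ℍ → ℂ)),
    mfHol F, mfHol G, isQ_of_modularFormL L F, isQ_of_modularFormL L G, hb0, h,
    div_mul_cancel₀ _ (fun h0 => hb0 (Subtype.ext (IsQ.eq_zero_of_qExpansion
      (isQ_of_modularFormL L G) (HahnSeries.ofPowerSeries_injective
        (h0.trans (map_zero _).symm)))))⟩


/-- the `q`-expansion of `iotaL L y` is `y` -/
theorem qRel_iotaL (L : Lvl) (y : FL L) :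
    QRel (iotaL L y) (coeffMap kappa (y : LaurentSeries Kb)) := by
  have h := qRel_phi (iotaQL L y)
  have e : phiS (iotaQL L y) = (y : LaurentSeries Kb) := by
    have h1 := phiS.rangeRestrictFieldEquiv.apply_symm_apply
      (⟨y.1, FL_le_range L y.1 y.2⟩ : phiS.fieldRange)
    exact congrArg Subtype.val h1
  rw [e] at h
  exact h

/-- the field of `q`-expansions of quotients of modular forms of equal weight on `Γ₀(L)` -/
def FTL (L : Lvl) : IntermediateField ℂ (LaurentSeries ℂ) where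
  carrier := {X | ∃ x, IsQuotL L.Γ x ∧ QRel x X}
  mul_mem' := by
    rintro _ _ ⟨x, hx, hX⟩ ⟨y, hy, hY⟩
    exact ⟨x * y, hx.mul hy, hX.mul hY⟩
  add_mem' := by
    rintro _ _ ⟨x, hx, hX⟩ ⟨y, hy, hY⟩
    exact ⟨x + y, hx.add hy, hX.add hY⟩
  algebraMap_mem' := fun c => ⟨_, IsQuotL.const L.Γ c, QRel.const c⟩
  inv_mem' := by
    rintro _ ⟨x, hx, hX⟩
    exact ⟨x⁻¹, hx.inv, hX.inv⟩

theorem mem_FTL {L : Lvl} {X : LaurentSeries ℂ} : X ∈ FTL L ↔ ∃ x, IsQuotL L.Γ x ∧ QRel x X := Iff.rfl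

/-- the analytic realisation, as a function -/
def iotaFunL (L : Lvl) (X : FTL L) : Mer := (mem_FTL.mp X.2).choose

theorem isQuotL_iotaFunL (L : Lvl) (X : FTL L) : IsQuotL L.Γ (iotaFunL L X) :=
  (mem_FTL.mp X.2).choose_spec.1

theorem qRel_iotaFunL (L : Lvl) (X : FTL L) : QRel (iotaFunL L X) (X : LaurentSeries ℂ) :=
  (mem_FTL.mp X.2).choose_spec.2

/-- the analytic realisation -/
def iotaTL (L : Lvl) : FTL L →+* Mer where
  toFun := iotaFunL L
  map_one' := (qRel_iotaFunL L 1).unique_left QRel.one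
  map_mul' X Y := (qRel_iotaFunL L (X * Y)).unique_left ((qRel_iotaFunL L X).mul (qRel_iotaFunL L Y))
  map_zero' := (qRel_iotaFunL L 0).unique_left QRel.zero
  map_add' X Y := (qRel_iotaFunL L (X + Y)).unique_left ((qRel_iotaFunL L X).add (qRel_iotaFunL L Y))

theorem isQuotL_iotaTL (L : Lvl) (X : FTL L) : IsQuotL L.Γ (iotaTL L X) := isQuotL_iotaFunL L X

theorem qRel_iotaTL (L : Lvl) (X : FTL L) : QRel (iotaTL L X) (X : LaurentSeries ℂ) := qRel_iotaFunL L X

theorem iotaTL_eq {L : Lvl} {X : FTL L} {x : Mer} (h : QRel x (X : LaurentSeries ℂ)) : iotaTL L X = x :=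
  (qRel_iotaTL L X).unique_left h

theorem iotaTL_algebraMap (L : Lvl) (c : ℂ) :
    iotaTL L (algebraMap ℂ (FTL L) c) = algebraMap ℂ Mer c :=
  iotaTL_eq (QRel.const c)

theorem exists_of_isQuotL (L : Lvl) (x : Mer) (hx : IsQuotL L.Γ x) :
    ∃ X : FTL L, iotaTL L X = x := by
  obtain ⟨X, hX⟩ := exists_qRel_of_isQuotL L x hx
  exact ⟨⟨X, x, hx, hX⟩, iotaTL_eq hX⟩

/-- the function field over `ℚ̄` inside `FTL L` -/
def mapFL (L : Lvl) : FL L →+* FTL L where
  toFun y := ⟨coeffMap kappa (y : LaurentSeries Kb), iotaL L y, isQuotL_iotaL L y, qRel_iotaL L y⟩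
  map_one' := Subtype.ext (map_one (coeffMap kappa))
  map_mul' x y := Subtype.ext (map_mul (coeffMap kappa) _ _)
  map_zero' := Subtype.ext (map_zero (coeffMap kappa))
  map_add' x y := Subtype.ext (map_add (coeffMap kappa) _ _)

theorem coe_mapFL (L : Lvl) (y : FL L) :
    ((mapFL L y : FTL L) : LaurentSeries ℂ) = coeffMap kappa (y : LaurentSeries Kb) := rfl

theorem iotaTL_mapFL (L : Lvl) (y : FL L) : iotaTL L (mapFL L y) = iotaL L y :=
  iotaTL_eq (qRel_iotaL L y)

/-- `j` -/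
def jTL (L : Lvl) : FTL L := mapFL L (jL L)

theorem iotaTL_jTL (L : Lvl) : iotaTL L (jTL L) = algebraMap Hol Mer jH := by
  rw [jTL, iotaTL_mapFL, iotaL_jL]


end Fermat.Agent.S48.M
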