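import Fermat.Agent.S48.M.Desc.Stable
import Fermat.Agent.S29.DField
import Fermat.Agent.IntStruct.Galois

/-!
# S48 / M / Desc : the action of `Aut ℂ` on `FTL L`; conjugates of cusp forms on `L.Γ`

Port of `S29/DField` (second part), `S29/DFieldAux` (`N ↦ L`), and the NEW `exists_cuspForm_mapL`
(replacement of `IntStruct.exists_cuspForm_map`): `X = G / Δ^K ∈ FTL L`, `X^s ∈ FTL L` is `A / B`; the conjugate of the monic relation of `G` over
level one cusp forms (`IntStruct.exists_monic_relation`) shows that `A Δ^K / B` is a cusp form (`IntStruct.exists_cuspForm_of_integral`).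
-/

set_option autoImplicit false

open UpperHalfPlane ModularForm ModularFormClass ModularCurve AlgebraicCurve CongruenceSubgroup
open Fermat.Agent.S24 Fermat.Agent.S29
open scoped MatrixGroups Manifold

noncomputable section

namespace Fermat.Agent.S48.M

theorem isMFH_DelH_powL (L : Lvl) (K : ℕ) :
    IsMFH (L.Γ : Subgroup (GL (Fin 2) ℝ)) (12 * K) (DelH ^ K) := by
  have hΔ : IsMFH (L.Γ : Subgroup (GL (Fin 2) ℝ)) 12 DelH :=
    IsMFH.of_levelOneL L.Γ (CuspForm.discriminant : ModularForm 𝒮ℒ 12)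
  have h := hΔ.pow K
  rwa [mul_comm] at h

theorem isQ_cuspFormL (L : Lvl) {k : ℤ}
    (G : CuspForm (L.Γ : Subgroup (GL (Fin 2) ℝ)) k) : IsQ (G : ℍ → ℂ) :=
  isQ_of_modularFormL L (S20.isCF_of_cuspForm G).isMF.toModularForm

/-- `G / Δ ^ K` -/
theorem qRel_cuspForm_divL (L : Lvl) {k : ℤ} (K : ℕ)
    (G : CuspForm (L.Γ : Subgroup (GL (Fin 2) ℝ)) k) {x : Mer}
    (hx : x * algebraMap Hol Mer (DelH ^ K) = algebraMap Hol Mer ⟨G, G.holo'⟩) :
    QRel x (ofPS (qExpansion 1 G) / ofPS (delS ℂ) ^ K) := by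
  rw [(eq_div_iff (DFieldAux.algebraMap_ne_zero (pow_ne_zero K DFieldAux.DelH_ne_zero))).mpr hx]
  exact (QRel.of_isQ ⟨G, G.holo'⟩ (isQ_cuspFormL L G)).div (DFieldAux.qRel_DelH_pow K)

/-- the action of `Aut ℂ` on `FTL L` -/
def galTL (L : Lvl) (s : ℂ ≃ₐ[ℚ] ℂ) : FTL L ≃+* FTL L where
  toFun x := ⟨coeffMap (s : ℂ →+* ℂ) (x : LaurentSeries ℂ), coeffMap_mem_FTL L s x.2⟩
  invFun x := ⟨coeffMap (s.symm : ℂ →+* ℂ) (x : LaurentSeries ℂ), coeffMap_mem_FTL L s.symm x.2⟩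
  left_inv x := Subtype.ext <| by
    show coeffMap (s.symm : ℂ →+* ℂ) (coeffMap (s : ℂ →+* ℂ) (x : LaurentSeries ℂ))
      = (x : LaurentSeries ℂ)
    rw [coeffMap_coeffMap,
      coeffMap_congr (g := RingHom.id ℂ) (RingHom.ext fun a => s.symm_apply_apply a)
        (x : LaurentSeries ℂ),
      coeffMap_id]
  right_inv x := Subtype.ext <| by
    show coeffMap (s : ℂ →+* ℂ) (coeffMap (s.symm : ℂ →+* ℂ) (x : LaurentSeries ℂ))
      = (x : LaurentSeries ℂ)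
    rw [coeffMap_coeffMap,
      coeffMap_congr (g := RingHom.id ℂ) (RingHom.ext fun a => s.apply_symm_apply a)
        (x : LaurentSeries ℂ),
      coeffMap_id]
  map_mul' x y :=
    Subtype.ext (map_mul (coeffMap (s : ℂ →+* ℂ)) (x : LaurentSeries ℂ) (y : LaurentSeries ℂ))
  map_add' x y :=
    Subtype.ext (map_add (coeffMap (s : ℂ →+* ℂ)) (x : LaurentSeries ℂ) (y : LaurentSeries ℂ))

theorem coe_galTL (L : Lvl) (s : ℂ ≃ₐ[ℚ] ℂ) (x : FTL L) :
    ((galTL L s x : FTL L) : LaurentSeries ℂ) = coeffMap (s : ℂ →+* ℂ) (x : LaurentSeries ℂ) := rfl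

theorem galTL_algebraMap (L : Lvl) (s : ℂ ≃ₐ[ℚ] ℂ) (a : ℂ) :
    galTL L s (algebraMap ℂ (FTL L) a) = algebraMap ℂ (FTL L) (s a) :=
  Subtype.ext (coeffMap_algebraMap (s : ℂ →+* ℂ) a)

/-- the semilinear automorphism of `FTL L` attached to `s` -/
def semTL (L : Lvl) (s : ℂ ≃ₐ[ℚ] ℂ) : SemilinearAut ℂ (FTL L) :=
  ⟨(galTL L s, s.toRingEquiv), fun a => galTL_algebraMap L s a⟩

theorem semTL_smul (L : Lvl) (s : ℂ ≃ₐ[ℚ] ℂ) (x : FTL L) : semTL L s • x = galTL L s x := rfl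

/-- `j` has rational coefficients -/
theorem galTL_jTL (L : Lvl) (s : ℂ ≃ₐ[ℚ] ℂ) : galTL L s (jTL L) = jTL L := by
  apply Subtype.ext
  show coeffMap (s : ℂ →+* ℂ) (coeffMap kappa (coeffMap (algebraMap ℚ Kb) jq)) =
    coeffMap kappa (coeffMap (algebraMap ℚ Kb) jq)
  rw [coeffMap_coeffMap, coeffMap_coeffMap, coeffMap_coeffMap]
  exact coeffMap_congr (Subsingleton.elim _ _) _

/-- conjugate cusp forms give conjugate elements of `FTL L` -/
theorem iotaTL_galTL_mul (L : Lvl) (s : ℂ ≃ₐ[ℚ] ℂ) (K : ℕ)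
    (G φ : CuspForm (L.Γ : Subgroup (GL (Fin 2) ℝ)) (12 * K))
    (hφ : qExpansion 1 φ = (qExpansion 1 G).map (s : ℂ →+* ℂ)) (X : FTL L)
    (hX : iotaTL L X * algebraMap Hol Mer (DelH ^ K) = algebraMap Hol Mer ⟨G, G.holo'⟩) :
    iotaTL L (galTL L s X) * algebraMap Hol Mer (DelH ^ K) = algebraMap Hol Mer ⟨φ, φ.holo'⟩ := by
  have hΔ := DFieldAux.algebraMap_ne_zero (pow_ne_zero K DFieldAux.DelH_ne_zero)
  have hXe := (qRel_iotaTL L X).unique_right (qRel_cuspForm_divL L K G hX)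
  have h1 : QRel (algebraMap Hol Mer ⟨φ, φ.holo'⟩ / algebraMap Hol Mer (DelH ^ K))
      (ofPS (qExpansion 1 φ) / ofPS (delS ℂ) ^ K) :=
    qRel_cuspForm_divL L K φ (div_mul_cancel₀ _ hΔ)
  have h2 : ((galTL L s X : FTL L) : LaurentSeries ℂ) =
      ofPS (qExpansion 1 φ) / ofPS (delS ℂ) ^ K := by
    rw [coe_galTL, hXe, map_div₀, map_pow, coeffMap_ofPowerSeries, coeffMap_ofPowerSeries,
      delS_map, hφ]
  rw [iotaTL_eq (h2 ▸ h1), div_mul_cancel₀ _ hΔ]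

/-- `G / Δ ^ K ∈ FTL L` -/
theorem exists_FTL_of_cuspForm (L : Lvl) (K : ℕ)
    (G : CuspForm (L.Γ : Subgroup (GL (Fin 2) ℝ)) (12 * K)) :
    ∃ X : FTL L, iotaTL L X * algebraMap Hol Mer (DelH ^ K) = algebraMap Hol Mer ⟨G, G.holo'⟩ := by
  have hΔ := DFieldAux.algebraMap_ne_zero (pow_ne_zero K DFieldAux.DelH_ne_zero)
  obtain ⟨X, hX⟩ := exists_of_isQuotL L
    (algebraMap Hol Mer ⟨G, G.holo'⟩ / algebraMap Hol Mer (DelH ^ K))
    ⟨K, ⟨G, G.holo'⟩, DelH ^ K, ⟨(S20.isCF_of_cuspForm G).isMF.toModularForm, rfl⟩,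
      isMFH_DelH_powL L K, pow_ne_zero K DFieldAux.DelH_ne_zero, div_mul_cancel₀ _ hΔ⟩
  exact ⟨X, by rw [hX, div_mul_cancel₀ _ hΔ]⟩

open IntStruct in
/-- **conjugates of cusp forms on `L.Γ`** -/
theorem exists_cuspForm_mapL (L : Lvl) (K : ℕ) (s : ℂ ≃ₐ[ℚ] ℂ)
    (G : CuspForm (L.Γ : Subgroup (GL (Fin 2) ℝ)) (12 * K)) :
    ∃ φ : CuspForm (L.Γ : Subgroup (GL (Fin 2) ℝ)) (12 * K),
      qExpansion 1 φ = (qExpansion 1 G).map (s : ℂ →+* ℂ) := by
  have hΓ := one_mem_strictPeriodsL L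
  have hS := one_mem_strictPeriods_SL
  set σ : ℂ →+* ℂ := (s : ℂ →+* ℂ) with hσdef
  obtain ⟨d, e, hrel⟩ := exists_monic_relation G
  choose e' he' using fun i => exists_levelOne_cuspForm_map σ (e i)
  obtain ⟨X, hX⟩ := exists_FTL_of_cuspForm L K G
  have hXe := (qRel_iotaTL L X).unique_right (qRel_cuspForm_divL L K G hX)
  obtain ⟨m, _, _, ⟨Fa, rfl⟩, ⟨Fb, rfl⟩, hb0, hab⟩ := isQuotL_iotaTL L (galTL L s X)
  have hq := (qRel_iotaTL L (galTL L s X)).unique_right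
    (DFieldAux.qRel_of_mul (mfHol Fa) (mfHol Fb) (isQ_of_modularFormL L Fa)
      (isQ_of_modularFormL L Fb) hb0 hab)
  obtain ⟨FΔ, hFΔ⟩ := isMFH_DelH_powL L K
  have nG : Nice G := nice_of_modularFormClass hΓ G
  have na : Nice Fa := nice_of_modularFormClass hΓ Fa
  have nb : Nice Fb := nice_of_modularFormClass hΓ Fb
  have nΔ : Nice FΔ := nice_of_modularFormClass hΓ FΔ
  have ne : ∀ i, Nice (e i) := fun i => nice_of_modularFormClass hS (e i)
  have ne' : ∀ i, Nice (e' i) := fun i => nice_of_modularFormClass hS (e' i)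
  have hFb0 : Fb ≠ 0 := by
    rintro rfl
    exact hb0 rfl
  have hqb : qExpansion 1 Fb ≠ 0 := fun h => hFb0 (DFunLike.coe_injective (nb.eq_zero h))
  have hqΔ : qExpansion 1 FΔ = delS ℂ ^ K := by
    have h1 : (FΔ : ℍ → ℂ) = (discriminant : ℍ → ℂ) ^ K := congrArg Subtype.val hFΔ
    rw [h1, DFieldAux.nice_disc.qExp_pow]
    exact congrArg (· ^ K) qExpansion_DelH
  -- the key identity
  have key : (qExpansion 1 G).map σ * qExpansion 1 Fb = delS ℂ ^ K * qExpansion 1 Fa := by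
    apply DFieldAux.ofPS_injective
    have hD : ofPS (delS ℂ) ^ K ≠ 0 := pow_ne_zero K fun h =>
      delS_ne_zero ℂ (DFieldAux.ofPS_injective (h.trans (map_zero _).symm))
    have hB : ofPS (qExpansion 1 Fb) ≠ 0 := fun h =>
      hqb (DFieldAux.ofPS_injective (h.trans (map_zero _).symm))
    rw [coe_galTL, hXe, map_div₀, map_pow, coeffMap_ofPowerSeries, coeffMap_ofPowerSeries,
      delS_map] at hq
    have hq' : ofPS ((qExpansion 1 G).map σ) / ofPS (delS ℂ) ^ K =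
      ofPS (qExpansion 1 Fa) / ofPS (qExpansion 1 Fb) := hq
    rw [div_eq_div_iff hD hB] at hq'
    rw [map_mul, map_mul, map_pow, hq', mul_comm]
  -- `q`-expansion of the relation
  have q1 : qExpansion 1 G ^ d + ∑ i : Fin d, qExpansion 1 (e i) * qExpansion 1 G ^ (i : ℕ) = 0 := by
    have h1 : (⇑G) ^ d + ∑ i : Fin d, ⇑(e i) * (⇑G) ^ (i : ℕ) = 0 := by
      funext z
      simpa using hrel z
    have := congrArg (qExpansion 1) h1
    rw [(nG.pow d).qExp_add (Nice.sum fun i _ => (ne i).mul (nG.pow _)),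
      nG.qExp_pow, Nice.qExp_sum fun i _ => (ne i).mul (nG.pow _), qExpansion_zero] at this
    rw [← this]
    congr 1
    refine Finset.sum_congr rfl fun i _ => ?_
    rw [(ne i).qExp_mul (nG.pow _), nG.qExp_pow]
  set G' : ModularForm (L.Γ : Subgroup (GL (Fin 2) ℝ)) (12 * K + 12 * m) := FΔ.mul Fa with hG'
  have nG' : Nice G' := nice_of_modularFormClass hΓ G'
  have hqG' : qExpansion 1 G' = (qExpansion 1 G).map σ * qExpansion 1 Fb := by
    have h1 : (G' : ℍ → ℂ) = ⇑FΔ * ⇑Fa := rfl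
    rw [h1, nΔ.qExp_mul na, hqΔ, key]
  have h1' : (⇑G') ^ d + ∑ i : Fin d, ⇑(e' i) * (⇑G') ^ (i : ℕ) * (⇑Fb) ^ (d - i : ℕ) = 0 := by
    apply Nice.eq_zero
      ((nG'.pow d).add (Nice.sum fun i _ => ((ne' i).mul (nG'.pow _)).mul (nb.pow _)))
    rw [(nG'.pow d).qExp_add (Nice.sum fun i _ => ((ne' i).mul (nG'.pow _)).mul (nb.pow _)),
      nG'.qExp_pow, Nice.qExp_sum fun i _ => ((ne' i).mul (nG'.pow _)).mul (nb.pow _)]
    have := congrArg (fun x => qExpansion 1 Fb ^ d * PowerSeries.map σ x) q1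
    simp only [map_add, map_pow, map_sum, map_mul, map_zero, mul_zero, mul_add,
      Finset.mul_sum] at this
    rw [← this, hqG', mul_pow, mul_comm]
    congr 1
    refine Finset.sum_congr rfl fun i _ => ?_
    rw [((ne' i).mul (nG'.pow _)).qExp_mul (nb.pow _), (ne' i).qExp_mul (nG'.pow _),
      nG'.qExp_pow, nb.qExp_pow, he', hqG']
    have hi : qExpansion 1 Fb ^ d = qExpansion 1 Fb ^ (i : ℕ) * qExpansion 1 Fb ^ (d - i : ℕ) := by
      rw [← pow_add]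
      congr 1
      have := i.2
      omega
    rw [hi, mul_pow]
    ring
  obtain ⟨φ, hφ⟩ := exists_cuspForm_of_integral L.Γ G' Fb hFb0 d e'
    (fun z => by simpa using congrFun h1' z)
  refine ⟨φ, ?_⟩
  have nφ : Nice φ := nice_of_modularFormClass hΓ φ
  have e1 : qExpansion 1 Fb * qExpansion 1 φ = qExpansion 1 G' := by
    rw [← nb.qExp_mul nφ]
    congr 1
    funext z
    exact hφ z
  rw [hqG', mul_comm] at e1
  exact mul_right_cancel₀ hqb e1

end Fermat.Agent.S48.M
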