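import Fermat.Agent.S48.M.Desc.Orbit
import Fermat.Agent.S29.Descent

/-!
# S48 / M / Desc : existence of the Kummer element `u_c ∈ FL L` of a parabolic character `e(c/m)`

Port of `S29/Descent` (`N ↦ L`).   DELIVERABLE of the sub-layer DESC: `desc_mainL`.
-/

set_option autoImplicit false

open UpperHalfPlane ModularForm ModularFormClass ModularCurve AlgebraicCurve CongruenceSubgroup
open Fermat.Agent.S24 Fermat.Agent.S29
open scoped MatrixGroups Manifold

noncomputable section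

namespace Fermat.Agent.S48.M

/-- **S29/DESCENT**: the Kummer element of the character `e(c/m)` exists in the function field over `ℚ̄` -/
theorem exists_kummerL (L : Lvl) {m : ℕ} (hm : m ≠ 0) (c : Additive (L.Γ) →+ ℤ)
    (hc : c ∈ XL L) : ∃ u : FL L, IsKummerL L m c u := by
  obtain ⟨f₀, hf₀, hne₀⟩ := exists_isChL L m c hc
  obtain ⟨f, hf, hne, halg⟩ :=
    exists_algebraicL L m 2 hm (chiOfL L m c) (chiOfL_pow L hm c) ⟨f₀, hf₀, hne₀⟩
  choose t ht using fun i => exists_kappa_of_isAlgebraic _ (halg i)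
  let T : PowerSeries Kb := PowerSeries.mk t
  have hT : T.map kappa = qExpansion 1 f := by
    ext i
    simp [T, ht]
  let F : Hol := ⟨f, hf.isQ.holo⟩
  have hF0 : F ≠ 0 := fun h => hne (congrArg Subtype.val h)
  let h : Mer := algebraMap Hol Mer F / algebraMap Hol Mer (DelH ^ 2)
  have hchar : HasCharL L m c h := hasCharL_of_isChL L m 2 c f hf
  have hinj : Function.Injective (algebraMap Hol Mer) := IsFractionRing.injective Hol Mer
  have hD0 : DelH ≠ 0 := by
    intro h0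
    have h1 := qExpansion_DelH
    rw [h0] at h1
    have h2 : qExpansion 1 (((0 : Hol) : ℍ → ℂ)) = 0 := by
      have : (((0 : Hol) : ℍ → ℂ)) = 0 := rfl
      rw [this]
      exact qExpansion_zero 1
    rw [h2] at h1
    exact delS_ne_zero ℂ h1.symm
  have hDn : ∀ n : ℕ, algebraMap Hol Mer (DelH ^ n) ≠ 0 := fun n =>
    (map_ne_zero_iff _ hinj).mpr (pow_ne_zero n hD0)
  have hh0 : h ≠ 0 := div_ne_zero ((map_ne_zero_iff _ hinj).mpr hF0) (hDn 2)
  -- the `q`-expansion of `h ^ m`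
  have q1 : QRel (algebraMap Hol Mer F) (ofPS (qExpansion 1 f)) := QRel.of_isQ F hf.isQ
  have q2 : QRel (algebraMap Hol Mer (DelH ^ 2)) (ofPS (delS ℂ) ^ 2) := by
    rw [map_pow, ← qExpansion_DelH]
    exact (QRel.of_isQ DelH isQ_DelH).pow 2
  have q3 : QRel (h ^ m) ((ofPS (qExpansion 1 f) / ofPS (delS ℂ) ^ 2) ^ m) := (q1.div q2).pow m
  let X₀ : LaurentSeries Kb :=
    (HahnSeries.ofPowerSeries ℤ Kb T / (HahnSeries.ofPowerSeries ℤ Kb (delS Kb)) ^ 2) ^ m
  have hX₀ : ModularCurve.coeffMap kappa X₀ = (ofPS (qExpansion 1 f) / ofPS (delS ℂ) ^ 2) ^ m := by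
    simp only [X₀, map_pow, map_div₀, coeffMap_ofPowerSeries, hT, delS_map]
  -- `h ^ m` is a quotient of modular forms
  have hquot : IsQuotL L.Γ (h ^ m) := by
    refine ⟨2 * m, F ^ m, DelH ^ (2 * m), ?_, isMFH_DelH_powL L (2 * m), pow_ne_zero _ hD0, ?_⟩
    · have h1 := (hf.isCF_pow hm (chiOfL_pow L hm c)).isMF
      have h2 : (m : ℤ) * (12 * ((2 : ℕ) : ℤ)) = 12 * ((2 * m : ℕ) : ℤ) := by push_cast; ring
      rw [h2] at h1
      exact ⟨h1.toModularForm, rfl⟩
    · rw [pow_mul, map_pow, map_pow (algebraMap Hol Mer) F, ← mul_pow]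
      congr 1
      exact div_mul_cancel₀ _ (hDn 2)
  obtain ⟨u, -, hu⟩ := exists_FL_of_qRel L (h ^ m) hquot X₀ (hX₀ ▸ q3)
  exact ⟨u, h, hh0, hu, hchar⟩

/-- the same for every `m` (the case `m = 0` is trivial); this is `Desc L m` of `S29/Wiring.lean` -/
theorem desc_mainL (L : Lvl) (m : ℕ) (c : Additive (L.Γ) →+ ℤ) (hc : c ∈ XL L) :
    ∃ u : FL L, IsKummerL L m c u := by
  rcases eq_or_ne m 0 with rfl | hm
  · refine ⟨1, 1, one_ne_zero, by rw [map_one, pow_zero], fun γ => ?_⟩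
    have h1 : zet 0 (c (Additive.ofMul γ)) = 1 := by simp [zet]
    rw [h1, map_one, map_one, mul_one]
  · exact exists_kummerL L hm c hc

end Fermat.Agent.S48.M
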