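import Fermat.Agent.S48.M.Desc.Deg

/-!
# S48 / M / Desc : `FTL L = ℂ · L.F₀` inside `ℂ((q))`; hence `Aut ℂ` preserves `FTL L`

This replaces `S29.coeffMap_mem_FT` (which used `IntStruct.exists_cuspForm_map`, i.e. `θ`-series on `Γ₀(N)`).
`E₀ = laurentBaseChange ℂ L.F₀ ≤ FTL L` (generators are quotients of modular forms); `[FTL L : ℂ(j)] = d = [SL₂(ℤ) : L.Γ]`
(`finrank_FTL`) and `[E₀ : ℂ(j)] ≥ d` because the `d` embeddings `sigmaTL L q` are already distinct on the image of `FL L`, which lies in `E₀`.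
`S29.DMemAux.descent_mem_intermediate` with `κ = id` gives `FTL L ≤ E₀`.
-/

set_option autoImplicit false

open UpperHalfPlane ModularForm ModularFormClass ModularCurve AlgebraicCurve CongruenceSubgroup
open Fermat.Agent.S24 Fermat.Agent.S29 IntermediateField
open scoped MatrixGroups Manifold IntermediateField.algebraAdjoinAdjoin

noncomputable section

namespace Fermat.Agent.S48.M

variable (L : Lvl)

theorem coeffMap_kappa_coeffEmb (x : LaurentSeries ℚ) :
    coeffMap kappa (coeffEmb Kb x) = coeffEmb ℂ x := by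
  rw [coeffEmb, coeffEmb, coeffMap_coeffMap]
  exact coeffMap_congr (Subsingleton.elim _ _) _

/-- `ℂ · L.F₀ ≤ FTL L` -/
theorem baseChange_le_FTL : laurentBaseChange ℂ L.F₀ ≤ FTL L := by
  unfold laurentBaseChange
  rw [IntermediateField.adjoin_le_iff]
  rintro _ ⟨x, hx, rfl⟩
  have h := (mapFL L (ratL L x hx)).2
  rw [coe_mapFL] at h
  have e : ((ratL L x hx : FL L) : LaurentSeries Kb) = coeffEmb Kb x := rfl
  rw [e, coeffMap_kappa_coeffEmb] at h
  exact h

/-- the image of `FL L` lies in `ℂ · L.F₀` -/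
theorem coeffMap_kappa_mem (y : LaurentSeries Kb) (hy : y ∈ barL L) :
    coeffMap kappa y ∈ laurentBaseChange ℂ L.F₀ := by
  rw [mem_laurentBaseChange_iff] at hy
  induction hy using Subfield.closure_induction with
  | mem y hy =>
      rcases hy with ⟨a, rfl⟩ | ⟨z, hz, rfl⟩
      · rw [algebraMap_laurentSeries_eq_single, coeffMap_single,
          ← algebraMap_laurentSeries_eq_single]
        exact (laurentBaseChange ℂ L.F₀).algebraMap_mem _
      · rw [coeffMap_kappa_coeffEmb]
        exact coeffEmb_mem_laurentBaseChange ℂ hz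
  | one => simp
  | add x y _ _ hx hy => simpa using add_mem hx hy
  | neg x _ hx => simpa using neg_mem hx
  | inv x _ hx => simpa using inv_mem hx
  | mul x y _ _ hx hy => simpa using mul_mem hx hy

/-- the inclusion `ℂ · L.F₀ → FTL L` -/
def inclC : FCL L →ₐ[ℂ] FTL L := IntermediateField.inclusion (baseChange_le_FTL L)

theorem coe_inclC (y : FCL L) : ((inclC L y : FTL L) : LaurentSeries ℂ) = (y : LaurentSeries ℂ) := rfl

/-- `j` in `ℂ · L.F₀` -/
def jC : FCL L := ⟨coeffEmb ℂ jq, coeffEmb_mem_laurentBaseChange ℂ (gens_le L L.jq_mem)⟩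

theorem inclC_jC : inclC L (jC L) = jTL L := by
  apply Subtype.ext
  show coeffEmb ℂ jq = coeffMap kappa (coeffEmb Kb jq)
  rw [coeffMap_kappa_coeffEmb]

theorem transcendental_jC : Transcendental ℂ (jC L) := by
  have h := transcendental_jTL L
  rw [← inclC_jC] at h
  exact fun halg => h (halg.algHom (inclC L))

theorem exists_poly_FCL (θ : FCL L) :
    ∃ R : Polynomial ℂ⟮jC L⟯, R ≠ 0 ∧ R.natDegree ≤ Nat.card (QL L) ∧
      Polynomial.aeval θ R = 0 := by
  obtain ⟨s, hs⟩ := descAux_not_linearIndependent_pow L (iotaTL L (inclC L θ))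
    (isQuotL_iotaTL L (inclC L θ))
  refine exists_poly_of_not_linearIndependent' (transcendental_jC L) θ s _ fun hli => hs ?_
  let φ : FCL L →ₗ[ℂ] Mer :=
    { toFun := fun x => iotaTL L (inclC L x)
      map_add' := fun x y => by rw [map_add, map_add]
      map_smul' := fun c x => by
        rw [Algebra.smul_def, map_mul, map_mul, AlgHom.commutes, iotaTL_algebraMap,
          RingHom.id_apply, Algebra.smul_def] }
  have hφ : Function.Injective φ := fun x y h =>
    (inclC L).injective ((iotaTL L).injective h)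
  have h1 := hli.map' φ (LinearMap.ker_eq_bot.mpr hφ)
  have e : (fun i : Fin (s + 1) × Fin (Nat.card (QL L) + 1) =>
      algebraMap Hol Mer jH ^ (i.1 : ℕ) * iotaTL L (inclC L θ) ^ (i.2 : ℕ)) =
      φ ∘ fun i : Fin (s + 1) × Fin (Nat.card (QL L) + 1) => jC L ^ (i.1 : ℕ) * θ ^ (i.2 : ℕ) := by
    ext1 i
    show _ = iotaTL L (inclC L (jC L ^ (i.1 : ℕ) * θ ^ (i.2 : ℕ)))
    rw [map_mul, map_pow, map_pow, map_mul, map_pow, map_pow, inclC_jC, iotaTL_jTL]
  rw [e]
  exact h1

theorem finiteDimensional_FCL : FiniteDimensional ℂ⟮jC L⟯ (FCL L) :=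
  have : CharZero ℂ⟮jC L⟯ := charZero_of_injective_algebraMap (algebraMap ℂ ℂ⟮jC L⟯).injective
  finiteDimensional_of_bounded _ (exists_poly_FCL L)

theorem card_le_finrank_FCL : Nat.card (QL L) ≤ Module.finrank ℂ⟮jC L⟯ (FCL L) := by
  have : Finite (QL L) := finite_QL L
  refine card_le_finrank_of_embeddings (jC L) (finiteDimensional_FCL L)
    (fun q => (sigmaTL L q).comp (inclC L : FCL L →+* FTL L)) ?_ ?_ ?_
  · intro q q' h
    apply sigmaL_injective L
    ext y
    have h1 := DFunLike.congr_fun h (⟨coeffMap kappa y.1, coeffMap_kappa_mem L y.1 y.2⟩ : FCL L)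
    have e : inclC L (⟨coeffMap kappa y.1, coeffMap_kappa_mem L y.1 y.2⟩ : FCL L) = mapFL L y :=
      Subtype.ext rfl
    simp only [RingHom.comp_apply, AlgHom.coe_toRingHom, e, sigmaTL_mapFL] at h1
    exact h1
  · intro i j a
    simp only [RingHom.comp_apply, AlgHom.coe_toRingHom, AlgHom.commutes, sigmaTL_algebraMap]
  · intro i j
    simp only [RingHom.comp_apply, AlgHom.coe_toRingHom, inclC_jC]
    rw [sigmaTL_apply, sigmaTL_apply, iotaTL_jTL, merAct_algebraMap, merAct_algebraMap, holAct_jH,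
      holAct_jH]

/-- **`FTL L = ℂ · L.F₀`** -/
theorem FTL_eq : FTL L = laurentBaseChange ℂ L.F₀ := by
  apply le_antisymm _ (baseChange_le_FTL L)
  intro X hX
  have hd : Module.finrank ℂ⟮jTL L⟯ (FTL L) ≤ Module.finrank ℂ⟮jC L⟯ (FCL L) := by
    rw [finrank_FTL]
    exact card_le_finrank_FCL L
  obtain ⟨u, hu⟩ := DMemAux.descent_mem_intermediate (laurentBaseChange ℂ L.F₀) (FTL L)
    (RingHom.id (LaurentSeries ℂ)) (fun d w hw => hw)
    (jC L) (transcendental_jC L) (finiteDimensional_FCL L) (jTL L)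
    (congrArg Subtype.val (inclC_jC L)).symm
    (finiteDimensional_FTL L) hd (fun y => inclC L y) (fun y => rfl) X ⟨X, hX⟩ rfl
  rw [← hu]
  exact u.2

/-- `Aut ℂ` preserves `FTL L` -/
theorem coeffMap_mem_FTL (s : ℂ ≃ₐ[ℚ] ℂ) {X : LaurentSeries ℂ} (hX : X ∈ FTL L) :
    coeffMap (s : ℂ →+* ℂ) X ∈ FTL L := by
  rw [FTL_eq] at hX ⊢
  exact coeffMap_mem_laurentBaseChange s hX

end Fermat.Agent.S48.M
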